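import Mathlib
import Fermat.Prelude.Def_AlgebraicCurve_DivisorClassGroup

/-!
# S29 (R3): the abstract forward Kummer map

Abstract setting (the same as `Desc/KummerFinite`): `F / K` a function field with the Prelude
place/divisor API and `HasPrincipalDivisors`, `M` a field ("meromorphic functions on `ℍ`"),
`Φ : F →+* M`, `ι : K →+* M` the constants, `ρ : Γ → M →+* M` ("translation by `γ`").

A *witness* for a family of multipliers `c : Γ → Kˣ` is `(y, f, D)` with `y ∈ Mˣ`,
`ρ γ y = ι (c γ) * y`, `yⁿ = Φ f` and `n • D = div f`.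

`exists_kummer_hom`: if `X` is a commutative group with an injective hom `m : X →* (Γ → Kˣ)` such
that every `m c` has a witness, then there is an **injective** hom
`e : X →* Multiplicative (Pic0.torsion K F n)` such that `e c` is the class of `D` for **every**
witness `(y, f, D)` of `m c`.
-/

set_option autoImplicit false

namespace Fermat.Agent.S29.Kummer.Forward

open AlgebraicCurve

noncomputable section

variable {K F M Γ : Type*} [Field K] [Field F] [Algebra K F] [Field M]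

/-- `(y, f, D)` is a witness for the multiplier family `c`. -/
structure Wit (Φ : F →+* M) (ι : K →+* M) (ρ : Γ → M →+* M) (n : ℕ)
    (c : Γ → Kˣ) (y : M) (f : F) (D : Divisor K F) : Prop where
  ne_zero : y ≠ 0
  mult : ∀ γ, ρ γ y = ι (c γ) * y
  pow_eq : y ^ n = Φ f
  div_eq : ∀ P : Place K F, (n : ℤ) * D P = P.ord f

namespace Wit

variable {Φ : F →+* M} {ι : K →+* M} {ρ : Γ → M →+* M} {n : ℕ}

theorem f_ne_zero {c : Γ → Kˣ} {y : M} {f : F} {D : Divisor K F} (h : Wit Φ ι ρ n c y f D) :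
    f ≠ 0 := by
  rintro rfl
  have h1 := h.pow_eq
  rw [map_zero] at h1
  rcases Nat.eq_zero_or_pos n with hn | hn
  · rw [hn, pow_zero] at h1
    exact one_ne_zero h1
  · exact h.ne_zero ((pow_eq_zero_iff hn.ne').1 h1)

/-- the trivial witness. -/
theorem one : Wit Φ ι ρ n (1 : Γ → Kˣ) (1 : M) (1 : F) (0 : Divisor K F) where
  ne_zero := one_ne_zero
  mult γ := by simp
  pow_eq := by simp
  div_eq P := by simp

/-- product of witnesses. -/
theorem mul {c c' : Γ → Kˣ} {y y' : M} {f f' : F} {D D' : Divisor K F}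
    (h : Wit Φ ι ρ n c y f D) (h' : Wit Φ ι ρ n c' y' f' D') :
    Wit Φ ι ρ n (c * c') (y * y') (f * f') (D + D') where
  ne_zero := mul_ne_zero h.ne_zero h'.ne_zero
  mult γ := by
    rw [map_mul, h.mult, h'.mult, Pi.mul_apply, Units.val_mul, map_mul]
    ring
  pow_eq := by rw [mul_pow, h.pow_eq, h'.pow_eq, map_mul]
  div_eq P := by
    rw [Finsupp.add_apply, mul_add, h.div_eq, h'.div_eq, P.ord_mul h.f_ne_zero h'.f_ne_zero]

/-- the witness divisor has degree `0`. -/
theorem mem_degZero [HasPrincipalDivisors K F] (hn : 0 < n) {c : Γ → Kˣ} {y : M} {f : F}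
    {D : Divisor K F} (h : Wit Φ ι ρ n c y f D) : D ∈ Divisor.degZero (K := K) (F := F) := by
  obtain ⟨D', hD', hdeg⟩ := HasPrincipalDivisors.exists_divisor (K := K) f h.f_ne_zero
  have hnD : (n : ℤ) • D = D' := by
    ext P
    rw [Finsupp.smul_apply, smul_eq_mul, h.div_eq, hD']
  rw [Divisor.mem_degZero]
  have h2 : (n : ℤ) • Divisor.degree D = 0 := by
    rw [← map_zsmul, hnD, hdeg]
  rw [smul_eq_mul] at h2
  exact (mul_eq_zero.1 h2).resolve_left (by exact_mod_cast hn.ne')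

end Wit

section Core

variable (Φ : F →+* M) (ι : K →+* M) (ρ : Γ → M →+* M) {n : ℕ}

/-- two witnesses of the same multiplier family differ by a principal divisor. -/
theorem sub_mem_principal (hn : 0 < n)
    (hC : ∀ y : M, (∀ γ, ρ γ y = y) → (∃ f : F, y ^ n = Φ f) → ∃ w : F, Φ w = y)
    {c : Γ → Kˣ} {y y' : M} {f f' : F} {D D' : Divisor K F}
    (h : Wit Φ ι ρ n c y f D) (h' : Wit Φ ι ρ n c y' f' D') :
    D - D' ∈ Divisor.principal (K := K) (F := F) := by
  have hinv : ∀ γ, ρ γ (y / y') = y / y' := by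
    intro γ
    rw [map_div₀, h.mult, h'.mult]
    have hc : ι (c γ) ≠ 0 := (map_ne_zero ι).2 (c γ).ne_zero
    field_simp
  have hpow : (y / y') ^ n = Φ (f / f') := by
    rw [div_pow, h.pow_eq, h'.pow_eq, map_div₀]
  obtain ⟨w, hw⟩ := hC (y / y') hinv ⟨f / f', hpow⟩
  have hw0 : w ≠ 0 := by
    rintro rfl
    rw [map_zero] at hw
    exact div_ne_zero h.ne_zero h'.ne_zero hw.symm
  have hwn : w ^ n = f / f' := by
    apply Φ.injective
    rw [map_pow, hw, hpow]
  refine ⟨w, hw0, fun P => ?_⟩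
  have h1 : (n : ℤ) * (D - D') P = (n : ℤ) * P.ord w := by
    rw [Finsupp.sub_apply, mul_sub, h.div_eq, h'.div_eq]
    have : P.ord (w ^ n) = (n : ℤ) * P.ord w := by
      have := P.ord_zpow w n
      rwa [zpow_natCast] at this
    rw [← this, hwn, div_eq_mul_inv, P.ord_mul h.f_ne_zero (inv_ne_zero h'.f_ne_zero), P.ord_inv]
    ring
  exact mul_left_cancel₀ (by exact_mod_cast hn.ne' : (n : ℤ) ≠ 0) h1

/-- a witness with principal divisor has trivial multipliers. -/
theorem eq_one_of_principal (hn : 0 < n) (hΦι : ∀ a, Φ (algebraMap K F a) = ι a)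
    (hρι : ∀ γ a, ρ γ (ι a) = ι a) (hρΦ : ∀ γ f, ρ γ (Φ f) = Φ f)
    {ζ0 : K} (hζ0 : IsPrimitiveRoot ζ0 n) (hroot : ∀ a : K, ∃ b : K, b ^ n = a)
    (hconst : ∀ u : F, u ≠ 0 → (∀ P : Place K F, P.ord u = 0) → ∃ a : K, u = algebraMap K F a)
    {c : Γ → Kˣ} {y : M} {f : F} {D : Divisor K F}
    (h : Wit Φ ι ρ n c y f D) (hD : D ∈ Divisor.principal (K := K) (F := F)) : c = 1 := by
  obtain ⟨w, hw0, hw⟩ := hD
  -- `u := f / wⁿ` has trivial divisor
  have hord : ∀ P : Place K F, P.ord (f / w ^ n) = 0 := by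
    intro P
    have h1 : P.ord (w ^ n) = (n : ℤ) * P.ord w := by
      have := P.ord_zpow w n
      rwa [zpow_natCast] at this
    rw [div_eq_mul_inv, P.ord_mul h.f_ne_zero (inv_ne_zero (pow_ne_zero _ hw0)), P.ord_inv, h1,
      ← h.div_eq, hw]
    ring
  obtain ⟨a, ha⟩ := hconst (f / w ^ n) (div_ne_zero h.f_ne_zero (pow_ne_zero _ hw0)) hord
  obtain ⟨b, hb⟩ := hroot a
  have hf : f = algebraMap K F a * w ^ n := by
    rw [← ha, div_mul_cancel₀ _ (pow_ne_zero _ hw0)]
  have ha0 : a ≠ 0 := by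
    rintro rfl
    rw [map_zero, zero_mul] at hf
    exact h.f_ne_zero hf
  have hb0 : b ≠ 0 := by
    rintro rfl
    rw [zero_pow hn.ne'] at hb
    exact ha0 hb.symm
  -- `z := y / (ι b * Φ w)` is an `n`-th root of unity in `M`
  set z : M := y / (ι b * Φ w) with hz
  have hden : ι b * Φ w ≠ 0 :=
    mul_ne_zero ((map_ne_zero ι).2 hb0) ((map_ne_zero Φ).2 hw0)
  have hzn : z ^ n = 1 := by
    rw [hz, div_pow, h.pow_eq, hf, map_mul, hΦι, ← hb, map_pow, map_pow, mul_pow]
    exact div_self (by rw [← mul_pow]; exact pow_ne_zero _ hden)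
  -- the `n`-th roots of unity of `M` are constants
  have hζM : IsPrimitiveRoot (ι ζ0) n := hζ0.map_of_injective ι.injective
  have : NeZero n := ⟨hn.ne'⟩
  obtain ⟨i, -, hi⟩ := hζM.eq_pow_of_pow_eq_one hzn
  have hzι : z = ι (ζ0 ^ i) := by rw [map_pow, hi]
  have hy : y = ι (ζ0 ^ i * b) * Φ w := by
    rw [map_mul, ← hzι, hz, mul_assoc, div_mul_cancel₀ _ hden]
  -- hence `y` is invariant
  funext γ
  have h1 := h.mult γ
  have h2 : ρ γ y = y := by
    rw [hy, map_mul, hρι, hρΦ]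
  rw [h2] at h1
  have h3 : ι (c γ) = 1 := by
    have := mul_right_cancel₀ h.ne_zero (a := (1 : M)) (c := ι (c γ)) (by rw [one_mul]; exact h1)
    exact this.symm
  have h4 : ((c γ : Kˣ) : K) = 1 := ι.injective (by rw [h3, map_one])
  exact Units.ext h4

/-- division of a principal divisor by `n`. -/
theorem exists_divisor_div [HasPrincipalDivisors K F] {f : F} (hf : f ≠ 0)
    (hdvd : ∀ P : Place K F, (n : ℤ) ∣ P.ord f) :
    ∃ D : Divisor K F, ∀ P : Place K F, (n : ℤ) * D P = P.ord f := by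
  obtain ⟨D', hD', -⟩ := HasPrincipalDivisors.exists_divisor (K := K) f hf
  refine ⟨D'.mapRange (fun z => z / (n : ℤ)) (by simp), fun P => ?_⟩
  rw [Finsupp.mapRange_apply, hD']
  exact Int.mul_ediv_cancel' (hdvd P)

/-- **The abstract forward Kummer map.** -/
theorem exists_kummer_hom [HasPrincipalDivisors K F] (hn : 0 < n)
    (hΦι : ∀ a, Φ (algebraMap K F a) = ι a)
    (hρι : ∀ γ a, ρ γ (ι a) = ι a) (hρΦ : ∀ γ f, ρ γ (Φ f) = Φ f)
    {ζ0 : K} (hζ0 : IsPrimitiveRoot ζ0 n) (hroot : ∀ a : K, ∃ b : K, b ^ n = a)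
    (hconst : ∀ u : F, u ≠ 0 → (∀ P : Place K F, P.ord u = 0) → ∃ a : K, u = algebraMap K F a)
    (hC : ∀ y : M, (∀ γ, ρ γ y = y) → (∃ f : F, y ^ n = Φ f) → ∃ w : F, Φ w = y)
    {X : Type*} [CommGroup X] (m : X →* (Γ → Kˣ)) (hm : Function.Injective m)
    (hX : ∀ c : X, ∃ (y : M) (f : F), y ≠ 0 ∧ (∀ γ, ρ γ y = ι (m c γ) * y) ∧ y ^ n = Φ f ∧
      ∀ P : Place K F, (n : ℤ) ∣ P.ord f) :
    ∃ e : X →* Multiplicative (Pic0.torsion K F n), Function.Injective e ∧
      ∀ (c : X) (y : M) (f : F) (D : Divisor K F), Wit Φ ι ρ n (m c) y f D →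
        ∃ hD : D ∈ Divisor.degZero (K := K) (F := F),
          ((Multiplicative.toAdd (e c) : Pic0.torsion K F n) : Pic0 K F) = Pic0.mk ⟨D, hD⟩ := by
  classical
  -- witnesses exist
  have hex : ∀ c : X, ∃ (y : M) (f : F) (D : Divisor K F), Wit Φ ι ρ n (m c) y f D := by
    intro c
    obtain ⟨y, f, hy, hmult, hpow, hdvd⟩ := hX c
    have hf : f ≠ 0 := by
      rintro rfl
      rw [map_zero] at hpow
      exact hy ((pow_eq_zero_iff hn.ne').1 hpow)
    obtain ⟨D, hD⟩ := exists_divisor_div hf hdvd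
    exact ⟨y, f, D, ⟨hy, hmult, hpow, hD⟩⟩
  choose y f D hW using hex
  let E : X → Pic0 K F := fun c => Pic0.mk ⟨D c, (hW c).mem_degZero hn⟩
  -- any witness computes `E`
  have hkey : ∀ (c : X) (y' : M) (f' : F) (D' : Divisor K F) (h' : Wit Φ ι ρ n (m c) y' f' D'),
      Pic0.mk ⟨D', h'.mem_degZero hn⟩ = E c := by
    intro c y' f' D' h'
    show (QuotientAddGroup.mk _ : Pic0 K F) = QuotientAddGroup.mk _
    rw [QuotientAddGroup.eq, AddSubgroup.mem_addSubgroupOf]
    have h1 := sub_mem_principal Φ ι ρ hn hC (hW c) h'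
    have h2 : ((-(⟨D', h'.mem_degZero hn⟩ : Divisor.degZero (K := K) (F := F)) +
        ⟨D c, (hW c).mem_degZero hn⟩ : Divisor.degZero (K := K) (F := F)) : Divisor K F)
        = D c - D' := by
      simp only [AddSubgroup.coe_add, AddSubgroup.coe_neg]
      abel
    rw [h2]
    exact h1
  have hE_mul : ∀ c c' : X, E (c * c') = E c + E c' := by
    intro c c'
    have hw : Wit Φ ι ρ n (m (c * c')) (y c * y c') (f c * f c') (D c + D c') := by
      rw [map_mul]
      exact (hW c).mul (hW c')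
    rw [← hkey (c * c') _ _ _ hw]
    rfl
  have hE_one : E 1 = 0 := by
    have hw : Wit Φ ι ρ n (m 1) (1 : M) (1 : F) (0 : Divisor K F) := by
      rw [map_one]
      exact Wit.one
    rw [← hkey 1 _ _ _ hw]
    rfl
  have hE_tors : ∀ c : X, E c ∈ Pic0.torsion K F n := by
    intro c
    rw [Pic0.mem_torsion]
    show (n : ℤ) • (QuotientAddGroup.mk _ : Pic0 K F) = 0
    rw [← QuotientAddGroup.mk_zsmul, QuotientAddGroup.eq_zero_iff, AddSubgroup.mem_addSubgroupOf]
    refine ⟨f c, (hW c).f_ne_zero, fun P => ?_⟩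
    rw [AddSubgroup.coe_zsmul, Finsupp.smul_apply, smul_eq_mul]
    exact (hW c).div_eq P
  let e : X →* Multiplicative (Pic0.torsion K F n) :=
    { toFun := fun c => Multiplicative.ofAdd ⟨E c, hE_tors c⟩
      map_one' := by
        apply Multiplicative.toAdd.injective
        apply Subtype.ext
        exact hE_one
      map_mul' := fun c c' => by
        apply Multiplicative.toAdd.injective
        apply Subtype.ext
        exact hE_mul c c' }
  refine ⟨e, ?_, ?_⟩
  · rw [injective_iff_map_eq_one]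
    intro c hc
    have h0 : E c = 0 := by
      have := congrArg (fun z => ((Multiplicative.toAdd z : Pic0.torsion K F n) : Pic0 K F)) hc
      exact this
    have hprin : D c ∈ Divisor.principal (K := K) (F := F) := by
      have h1 : (QuotientAddGroup.mk _ : Pic0 K F) = 0 := h0
      rw [QuotientAddGroup.eq_zero_iff, AddSubgroup.mem_addSubgroupOf] at h1
      exact h1
    have := eq_one_of_principal Φ ι ρ hn hΦι hρι hρΦ hζ0 hroot hconst (hW c) hprin
    exact hm (by rw [this, map_one])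
  · intro c y' f' D' h'
    exact ⟨h'.mem_degZero hn, (hkey c y' f' D' h').symm⟩

/-- additive form of `exists_kummer_hom`. -/
theorem exists_kummer_addHom [HasPrincipalDivisors K F] (hn : 0 < n)
    (hΦι : ∀ a, Φ (algebraMap K F a) = ι a)
    (hρι : ∀ γ a, ρ γ (ι a) = ι a) (hρΦ : ∀ γ f, ρ γ (Φ f) = Φ f)
    {ζ0 : K} (hζ0 : IsPrimitiveRoot ζ0 n) (hroot : ∀ a : K, ∃ b : K, b ^ n = a)
    (hconst : ∀ u : F, u ≠ 0 → (∀ P : Place K F, P.ord u = 0) → ∃ a : K, u = algebraMap K F a)
    (hC : ∀ y : M, (∀ γ, ρ γ y = y) → (∃ f : F, y ^ n = Φ f) → ∃ w : F, Φ w = y)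
    {A : Type*} [AddCommGroup A] (m : Multiplicative A →* (Γ → Kˣ)) (hm : Function.Injective m)
    (hX : ∀ c : A, ∃ (y : M) (f : F), y ≠ 0 ∧
      (∀ γ, ρ γ y = ι (m (Multiplicative.ofAdd c) γ) * y) ∧ y ^ n = Φ f ∧
      ∀ P : Place K F, (n : ℤ) ∣ P.ord f) :
    ∃ e : A →+ Pic0.torsion K F n, Function.Injective e ∧
      ∀ (c : A) (y : M) (f : F) (D : Divisor K F),
        Wit Φ ι ρ n (m (Multiplicative.ofAdd c)) y f D →
        ∃ hD : D ∈ Divisor.degZero (K := K) (F := F),
          ((e c : Pic0.torsion K F n) : Pic0 K F) = Pic0.mk ⟨D, hD⟩ := by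
  obtain ⟨e, he, hspec⟩ := exists_kummer_hom Φ ι ρ hn hΦι hρι hρΦ hζ0 hroot hconst hC m hm
    (fun c => hX (Multiplicative.toAdd c))
  refine ⟨AddMonoidHom.toMultiplicative.symm e, ?_, ?_⟩
  · intro a b hab
    have : e (Multiplicative.ofAdd a) = e (Multiplicative.ofAdd b) :=
      Multiplicative.toAdd.injective hab
    exact Multiplicative.ofAdd.injective (he this)
  · intro c y f D hw
    exact hspec (Multiplicative.ofAdd c) y f D hw

end Core

end

end Fermat.Agent.S29.Kummer.Forward
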