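import Mathlib
import Fermat.Agent.S29.Kummer.Forward
import Fermat.Agent.S29.Eis.Adapter
import Fermat.Agent.S24.CuspMer
import Fermat.Agent.S24.PsiLe

/-!
# S29 (R3, T1): the Kummer class map over `ℂ`

`Γ = Γ₀(N)`, `FC N = laurentBaseChange ℂ (modularFunctionFieldFull N)` (the function field of
`X₀(N)` over `ℂ`), `Mer` the meromorphic functions on `ℍ` (S24), `Φ : FC N →+* Mer` a bridge.

For an `F_p`-character `ψ : Additive Γ →+ ZMod p` killing the parabolic and the finite-order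
elements (`IsAdmHom ψ`), the twisted Eisenstein quotient `y = F_{charOf ψ}` has multiplier
`charOf ψ` on `Γ`, `y ^ p = Φ f` for some `f : FC N` with `p ∣ ord_P f` for all places `P`, and
`cls ψ := [(1/p) div f] ∈ Pic⁰(FC N)[p]`.

`Blocks N p Φ` collects, as explicit hypotheses, the exports of the blocks (E) (Eisenstein),
(MF) (modular functions: converse of the bridge), (Dict) (places ↔ points) that this needs.

`exists_cls` : under `Blocks N p Φ`, for every `ZMod p`-submodule `P` of admissible characters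
there is an **injective** `ZMod p`-linear map `cls : P →ₗ[ZMod p] Pic0.torsion ℂ (FC N) p` such
that for EVERY witness `(y, f, D)` of `ψ ∈ P` (`y ≠ 0` with multiplier `charOf ψ`, `y ^ p = Φ f`,
`p • D = div f`) one has `cls ψ = [D]` (instantiation of `Kummer/Forward.exists_kummer_addHom`).
-/

set_option autoImplicit false

noncomputable section

namespace Fermat.Agent.S29.Kummer.ClassMapC

open AlgebraicCurve ModularCurve CongruenceSubgroup
open Fermat.Agent.S24 Fermat.Agent.S24.PsiLe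
open Fermat.Agent.S29.Eis Fermat.Agent.S29.Kummer.Forward
open scoped MatrixGroups

/-- the function field of `X₀(N)` over `ℂ`. -/
abbrev FC (N : ℕ) : Type := ↥(laurentBaseChange ℂ (modularFunctionFieldFull N))

/-- an additive character of `Γ₀(N)` killing the elements of trace `± 2` and the elements of finite
order. -/
def IsAdmHom {N : ℕ} {A : Type*} [AddCommGroup A] (ψ : Additive (Gamma0 N) →+ A) : Prop :=
  ∀ γ : Gamma0 N,
    (((γ : SL(2, ℤ)) : Matrix (Fin 2) (Fin 2) ℤ).trace ^ 2 = 4 ∨ IsOfFinOrder γ) →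
      ψ (Additive.ofMul γ) = 0

/-- the `ZMod p`-module of admissible `F_p`-characters of `Γ₀(N)`. -/
def admSub (N p : ℕ) : Submodule (ZMod p) (Additive (Gamma0 N) →+ ZMod p) where
  carrier := {ψ | IsAdmHom ψ}
  zero_mem' := fun _ _ => rfl
  add_mem' := fun {a b} ha hb γ hγ => by
    rw [AddMonoidHom.add_apply, ha γ hγ, hb γ hγ, add_zero]
  smul_mem' := fun c a ha γ hγ => by
    rw [AddMonoidHom.smul_apply, ha γ hγ, smul_zero]

theorem mem_admSub {N p : ℕ} {ψ : Additive (Gamma0 N) →+ ZMod p} :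
    ψ ∈ admSub N p ↔ IsAdmHom ψ := Iff.rfl

/-- the exports of the blocks (E), (MF), (Dict) consumed by the class map. -/
structure Blocks (N p : ℕ) [NeZero N] [NeZero p] (Φ : FC N →+* Mer) : Prop where
  /-- `Φ` is the identity on constants. -/
  phi_const : ∀ a : ℂ, Φ (algebraMap ℂ (FC N) a) = algebraMap ℂ Mer a
  /-- the image of `Φ` is `Γ₀(N)`-invariant. -/
  phi_inv : ∀ (γ : Gamma0 N) (f : FC N), compMer (γ : SL(2, ℤ)) (Φ f) = Φ f
  /-- the image of `Φ` satisfies the cusp condition. -/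
  phi_cusp : ∀ (g : SL(2, ℤ)) (f : FC N), compMer g (Φ f) ∈ MerInf N
  /-- (MF) converse: invariant + cusp condition ⟹ in the image of `Φ`. -/
  conv : ∀ m : Mer, (∀ γ : Gamma0 N, compMer (γ : SL(2, ℤ)) m = m) →
    (∀ g : SL(2, ℤ), compMer g m ∈ MerInf N) → ∃ f : FC N, Φ f = m
  /-- (MF) + root-at-cusps: an invariant `p`-th root of an element of the image is in the image. -/
  root : ∀ y : Mer, (∀ γ : Gamma0 N, compMer (γ : SL(2, ℤ)) y = y) →
    (∃ f : FC N, y ^ p = Φ f) → ∃ w : FC N, Φ w = y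
  /-- (E): the twisted Eisenstein quotient. -/
  eis : ∀ ψ : Additive (Gamma0 N) →+ ZMod p, IsAdmHom ψ →
    ∃ y : Mer, y ≠ 0 ∧
      (∀ γ : Gamma0 N, compMer (γ : SL(2, ℤ)) y = algebraMap ℂ Mer ((charOf ψ γ : ℂˣ) : ℂ) * y) ∧
      ∀ g : SL(2, ℤ), compMer g y ∈ MerInf N
  /-- (Dict): `p ∣ ord_P x` if `Φ x = m ^ p` with `m` fixed by the torsion and the parabolic
  elements of `Γ₀(N)` and meromorphic at the cusps. -/
  dict : ∀ m : Mer, m ≠ 0 → ∀ x : FC N, Φ x = m ^ p →
    (∀ γ ∈ Gamma0 N, γ ^ 12 = 1 → compMer γ m = m) →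
    (∀ γ ∈ Gamma0 N, ((γ : SL(2, ℤ)) : Matrix (Fin 2) (Fin 2) ℤ).trace = 2 → compMer γ m = m) →
    (∀ g : SL(2, ℤ), compMer g m ∈ MerInf N) →
    ∀ P : Place ℂ (FC N), (p : ℤ) ∣ P.ord x
  /-- functions without zeros and poles are constant. -/
  const : ∀ u : FC N, u ≠ 0 → (∀ P : Place ℂ (FC N), P.ord u = 0) →
    ∃ a : ℂ, u = algebraMap ℂ (FC N) a

section Mult

variable {N p : ℕ} [NeZero p]

theorem charOf_add (ψ ψ' : Additive (Gamma0 N) →+ ZMod p) (γ : Gamma0 N) :
    charOf (ψ + ψ') γ = charOf ψ γ * charOf ψ' γ := by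
  rw [← Units.val_inj, Units.val_mul, charOf_apply, charOf_apply, charOf_apply,
    AddMonoidHom.add_apply, AddChar.map_add_eq_mul]

/-- the multiplier family of an admissible character. -/
def multHom (P : Submodule (ZMod p) (Additive (Gamma0 N) →+ ZMod p)) :
    Multiplicative P →* (Gamma0 N → ℂˣ) where
  toFun u γ := charOf ((Multiplicative.toAdd u : P) : Additive (Gamma0 N) →+ ZMod p) γ
  map_one' := by
    funext γ
    show charOf ((0 : P) : Additive (Gamma0 N) →+ ZMod p) γ = 1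
    rw [Submodule.coe_zero, charOf_zero]
    rfl
  map_mul' u v := by
    funext γ
    show charOf (((Multiplicative.toAdd u + Multiplicative.toAdd v : P)) :
      Additive (Gamma0 N) →+ ZMod p) γ = _
    rw [Submodule.coe_add, charOf_add]
    rfl

theorem multHom_apply (P : Submodule (ZMod p) (Additive (Gamma0 N) →+ ZMod p)) (u : P)
    (γ : Gamma0 N) :
    multHom P (Multiplicative.ofAdd u) γ = charOf (u : Additive (Gamma0 N) →+ ZMod p) γ := rfl

theorem multHom_injective (P : Submodule (ZMod p) (Additive (Gamma0 N) →+ ZMod p)) :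
    Function.Injective (multHom P) := by
  rw [injective_iff_map_eq_one]
  intro u hu
  have h0 : (Multiplicative.toAdd u : P) = 0 := by
    apply Subtype.ext
    rw [Submodule.coe_zero]
    ext x
    have h1 := congrFun hu x
    have h2 : charOf ((Multiplicative.toAdd u : P) : Additive (Gamma0 N) →+ ZMod p) x = 1 := h1
    rw [charOf_eq_one_iff] at h2
    simpa using h2
  exact Multiplicative.toAdd.injective h0

end Mult

section Main

variable {N p : ℕ} [NeZero N] [hp : Fact p.Prime]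

/-- **The Kummer class map over `ℂ`**: injective, `ZMod p`-linear, computed by every witness. -/
theorem exists_cls [HasPrincipalDivisors ℂ (FC N)] {Φ : FC N →+* Mer} (hB : Blocks N p Φ)
    (P : Submodule (ZMod p) (Additive (Gamma0 N) →+ ZMod p)) (hP : P ≤ admSub N p) :
    ∃ cls : P →ₗ[ZMod p] Pic0.torsion ℂ (FC N) p, Function.Injective cls ∧
      ∀ (u : P) (y : Mer) (f : FC N) (D : Divisor ℂ (FC N)),
        Wit Φ (algebraMap ℂ Mer) (fun γ : Gamma0 N => compMer (γ : SL(2, ℤ))) p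
          (fun γ => charOf (u : Additive (Gamma0 N) →+ ZMod p) γ) y f D →
        ∃ hD : D ∈ Divisor.degZero (K := ℂ) (F := FC N),
          ((cls u : Pic0.torsion ℂ (FC N) p) : Pic0 ℂ (FC N)) = Pic0.mk ⟨D, hD⟩ := by
  have hp0 : 0 < p := hp.out.pos
  have hζ : IsPrimitiveRoot (Complex.exp (2 * Real.pi * Complex.I / p)) p :=
    Complex.isPrimitiveRoot_exp p hp.out.ne_zero
  have hroot : ∀ a : ℂ, ∃ b : ℂ, b ^ p = a := fun a => IsAlgClosed.exists_pow_nat_eq a hp0
  have hρι : ∀ (γ : Gamma0 N) (a : ℂ),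
      compMer (γ : SL(2, ℤ)) (algebraMap ℂ Mer a) = algebraMap ℂ Mer a := by
    intro γ a
    have h1 := hB.phi_inv γ (algebraMap ℂ (FC N) a)
    rwa [hB.phi_const] at h1
  -- existence of witnesses
  have hX : ∀ u : P, ∃ (y : Mer) (f : FC N), y ≠ 0 ∧
      (∀ γ : Gamma0 N, compMer (γ : SL(2, ℤ)) y =
        algebraMap ℂ Mer ((multHom P (Multiplicative.ofAdd u) γ : ℂˣ) : ℂ) * y) ∧
      y ^ p = Φ f ∧ ∀ Q : Place ℂ (FC N), (p : ℤ) ∣ Q.ord f := by
    intro u
    have hu : IsAdmHom (u : Additive (Gamma0 N) →+ ZMod p) := hP u.2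
    obtain ⟨y, hy0, hymult, hycusp⟩ := hB.eis u hu
    -- `y ^ p` is invariant and satisfies the cusp condition
    have hinv : ∀ γ : Gamma0 N, compMer (γ : SL(2, ℤ)) (y ^ p) = y ^ p := by
      intro γ
      rw [map_pow, hymult γ, mul_pow, ← map_pow, charOf_pow, map_one, one_mul]
    have hcusp : ∀ g : SL(2, ℤ), compMer g (y ^ p) ∈ MerInf N := by
      intro g
      rw [map_pow]
      exact pow_mem (hycusp g) p
    obtain ⟨f, hf⟩ := hB.conv (y ^ p) hinv hcusp
    refine ⟨y, f, hy0, hymult, hf.symm, ?_⟩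
    refine hB.dict y hy0 f hf ?_ ?_ hycusp
    · intro γ hγ h12
      have hfin : IsOfFinOrder (⟨γ, hγ⟩ : Gamma0 N) := by
        rw [isOfFinOrder_iff_pow_eq_one]
        exact ⟨12, by norm_num, Subtype.ext h12⟩
      have h1 := hymult ⟨γ, hγ⟩
      rw [(charOf_eq_one_iff _ _).mpr (hu ⟨γ, hγ⟩ (Or.inr hfin)), Units.val_one, map_one,
        one_mul] at h1
      exact h1
    · intro γ hγ htr
      have h4 : (((⟨γ, hγ⟩ : Gamma0 N) : SL(2, ℤ)) : Matrix (Fin 2) (Fin 2) ℤ).trace ^ 2 = 4 := by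
        show (γ : Matrix (Fin 2) (Fin 2) ℤ).trace ^ 2 = 4
        rw [htr]
        norm_num
      have h1 := hymult ⟨γ, hγ⟩
      rw [(charOf_eq_one_iff _ _).mpr (hu ⟨γ, hγ⟩ (Or.inl h4)), Units.val_one, map_one,
        one_mul] at h1
      exact h1
  obtain ⟨e, he, hspec⟩ := exists_kummer_addHom (K := ℂ) (F := FC N) (M := Mer) (Γ := Gamma0 N)
    Φ (algebraMap ℂ Mer) (fun γ : Gamma0 N => compMer (γ : SL(2, ℤ))) hp0
    hB.phi_const hρι hB.phi_inv hζ hroot hB.const hB.root (multHom P) (multHom_injective P) hX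
  refine ⟨e.toZModLinearMap p, he, ?_⟩
  intro u y f D hw
  exact hspec u y f D hw

end Main

end Fermat.Agent.S29.Kummer.ClassMapC

end
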