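import Mathlib
import Fermat.Agent.S29.HeckeInputsL

/-!
# S29 (R3): functions without zeros and poles are constant

`L` algebraically closed of characteristic zero, `F_L M = laurentBaseChange L (F_M)`:
a nonzero `u : F_L M` with `P.ord u = 0` for every place `P` is a constant
(`exists_const`).  This is the hypothesis `hconst` of `Kummer/Forward.exists_kummer_addHom` and the
field `const` of `Kummer/ClassMapC.Blocks`.
-/

set_option autoImplicit false

noncomputable section

open AlgebraicCurve IntermediateField ModularCurve
open Fermat.Agent.S24

namespace Fermat.Agent.S29.Kummer.ConstL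

open Fermat.Agent.S29.HeckeInputsL

variable (L : Type*) [Field L] [Algebra ℚ L] [IsAlgClosed L]

/-- an element of a field extension of an algebraically closed field which is algebraic is a
constant. -/
theorem mem_range_of_isAlgebraic {F : Type*} [Field F] [Algebra L F] {u : F}
    (hu : IsAlgebraic L u) : ∃ a : L, u = algebraMap L F a := by
  have hint : IsIntegral L u := hu.isIntegral
  have hirr := minpoly.irreducible hint
  have hdeg : (minpoly L u).degree = 1 := IsAlgClosed.degree_eq_one_of_irreducible L hirr
  obtain ⟨a, ha⟩ := minpoly.mem_range_of_degree_eq_one L u hdeg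
  exact ⟨a, ha.symm⟩

/-- **functions without zeros and poles are constant.** -/
theorem exists_const (M : ℕ) [NeZero M] (u : FL L M) (hu : u ≠ 0)
    (h : ∀ P : Place L (FL L M), P.ord u = 0) : ∃ a : L, u = algebraMap L (FL L M) a := by
  haveI := charZero_L L
  haveI := finiteDimensional_JL L M
  by_cases halg : IsAlgebraic L u
  · exact mem_range_of_isAlgebraic L halg
  · exfalso
    have htr : Transcendental L u := halg
    have hsum := FFGenus.sum_ord_zeros' (JL L M) (transcendental_JL L M) u htr
    have hempty : (FFGenus.zeros_finite' (JL L M) (transcendental_JL L M) u htr).toFinset = ∅ := by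
      rw [Finset.eq_empty_iff_forall_notMem]
      intro v hv
      rw [Set.Finite.mem_toFinset, Set.mem_setOf_eq, h v] at hv
      exact lt_irrefl _ hv
    rw [hempty, Finset.sum_empty] at hsum
    haveI : FiniteDimensional L⟮u⟯ (FL L M) :=
      FFGenus.finiteDimensional_of (JL L M) (transcendental_JL L M) u htr
    have hpos : 0 < Module.finrank L⟮u⟯ (FL L M) := Module.finrank_pos
    have : (Module.finrank L⟮u⟯ (FL L M) : ℤ) = 0 := hsum.symm
    omega

end Fermat.Agent.S29.Kummer.ConstL

end
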