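import Mathlib
import Fermat.Agent.S29.Kummer.ClassMapC
import Fermat.Agent.S29.Kummer.ConstL
import Fermat.Agent.S29.ModFunC.BlocksMF
import Fermat.Agent.S29.Eis.Fc
import Fermat.Agent.S29.Dict.Final

/-!
# S29 (R3, T1): the ledger `Blocks N p (PhiC N)` is inhabited

All eight fields of `Kummer.ClassMapC.Blocks` at the concrete bridge
`PhiC N = ModFunC.PhiK N (RingHom.id ℂ) : FC N →+* Mer`:

* `phi_const`, `phi_inv`, `phi_cusp`, `conv`, `root` : `ModFunC/BlocksMF`;
* `eis` : `Eis.exists_mer_multiplier` at `charOf ψ`;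
* `dict` : `Dict.Final.dvd_ord_of_pow_eq_PhiC`;
* `const` : `Kummer.ConstL.exists_const ℂ`.
-/

set_option autoImplicit false

noncomputable section

namespace Fermat.Agent.S29.Kummer.BlocksC

open AlgebraicCurve ModularCurve CongruenceSubgroup
open Fermat.Agent.S24 Fermat.Agent.S24.PsiLe
open Fermat.Agent.S29.Eis
open scoped MatrixGroups

/-- **the ledger of the Kummer class map at the concrete bridge `PhiC N`.** -/
theorem blocksC (N p : ℕ) [NeZero N] [NeZero p] :
    ClassMapC.Blocks N p (ModFunC.PhiC N) where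
  phi_const := ModFunC.blocks_phi_const N
  phi_inv := ModFunC.blocks_phi_inv N
  phi_cusp := ModFunC.blocks_phi_cusp N
  conv := ModFunC.blocks_conv N
  root := ModFunC.blocks_root N (NeZero.pos p)
  eis := fun ψ hψ =>
    Eis.exists_mer_multiplier (isAdm_charOf ψ (fun γ hγ => hψ γ (Or.inl hγ)))
  dict := fun m hm x hx htors hpar hmer P =>
    Dict.Final.dvd_ord_of_pow_eq_PhiC N m hm x p hx htors hpar hmer P
  const := fun u hu h => ConstL.exists_const ℂ N u hu h

end Fermat.Agent.S29.Kummer.BlocksC
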