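import Mathlib
import Fermat.Agent.S29.Kummer.ClassMapC
import Fermat.Agent.S29.Hk.Equivariant
import Fermat.Agent.S29.HeckeInputsL
import Fermat.Agent.S29.Betti.EigenSupport
import Fermat.Agent.S29.NonVanish.Skeleton

/-!
# S29 (R3): block (KC) of `NonVanish/Skeleton` from the ledgers `Blocks` and `HkInput`

`D0 N p : Skeleton.TopData N p` is the common source module of (R3): `P := Betti.XMod N (ZMod p)
(ZMod p)` (the admissible `F_p`-characters of `Γ₀(N)`) with the transfer operators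
`Betti.heckeXp`.

`blockKC_of` : `Skeleton.BlockKC N p (D0 N p)` follows from

* `ClassMapC.Blocks N p Φ` (the exports of (E), (MF), (Dict): ledger of `Kummer/ClassMapC`), and
* `HkInput N p Φ` (the analytic half of (Hk)): for every prime `ℓ ∤ N` a multiplicative map
  `Hp : Mer →* Mer` ("product of the translates by the Hecke representatives") with
  `Φ (Norm_α (β f)) = Hp (Φ f)` and the multiplier law
  `y` has multiplier `u` ⟹ `Hp y` has multiplier `heckeHom u`,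

through `Hk/Equivariant.exists_section` and `section_hecke` (helper20).
-/

set_option autoImplicit false

noncomputable section

namespace Fermat.Agent.S29.Kummer.BlockKC

open AlgebraicCurve ModularCurve CongruenceSubgroup
open Fermat.Agent.S24 Fermat.Agent.S24.PsiLe
open Fermat.Agent.S29.Eis Fermat.Agent.S29.Kummer.ClassMapC Fermat.Agent.S29.Hk.Equivariant
open Fermat.Agent.S29.Betti Fermat.Agent.S29.NonVanish
open scoped MatrixGroups

/-- the primitive `p`-th root of unity `exp (2 π i / p)` as a constant meromorphic function. -/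
def zetaMer (p : ℕ) : Mer := algebraMap ℂ Mer (Complex.exp (2 * Real.pi * Complex.I / p))

theorem zetaMer_isPrimitiveRoot (p : ℕ) [NeZero p] : IsPrimitiveRoot (zetaMer p) p :=
  (Complex.isPrimitiveRoot_exp p (NeZero.ne p)).map_of_injective (algebraMap ℂ Mer).injective

/-- `charOf u γ = ζ ^ (u γ).val`. -/
theorem algebraMap_charOf {N p : ℕ} [NeZero p] (u : Additive (Gamma0 N) →+ ZMod p)
    (γ : Gamma0 N) :
    algebraMap ℂ Mer ((charOf u γ : ℂˣ) : ℂ) = zetaMer p ^ (u (Additive.ofMul γ)).val := by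
  rw [zetaMer, ← map_pow, charOf_apply, ZMod.stdAddChar_apply, ZMod.toCircle_apply,
    ← Complex.exp_nat_mul]
  congr 2
  ring

/-- the common source module of (R3). -/
def D0 (N p : ℕ) [NeZero N] : Skeleton.TopData N p where
  P := XMod N (ZMod p) (ZMod p)
  T := fun ℓ => heckeXp N p ⟨ℓ.1, fun h => ℓ.2 (dvd_mul_of_dvd_left h p)⟩

/-- **the analytic half of (Hk)**, as a ledger entry. -/
def HkInput (N p : ℕ) [NeZero N] (Φ : FC N →+* Mer) : Prop :=
  ∀ (ℓ : ℕ) [hℓ : Fact ℓ.Prime] (hℓN : ¬ ℓ ∣ N),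
    haveI : NeZero ℓ := ⟨hℓ.out.ne_zero⟩
    ∃ Hp : Mer →* Mer,
      (∀ f : FC N, Φ (normAlong (heckeAlphaBar ℂ N ℓ) (heckeBetaBar ℂ N ℓ) f) = Hp (Φ f)) ∧
      ∀ (y : Mer) (u : Additive (Gamma0 N) →+ ZMod p), y ≠ 0 →
        (∀ γ : Gamma0 N, compMer (γ : SL(2, ℤ)) y =
          zetaMer p ^ (u (Additive.ofMul γ)).val * y) →
        ∀ γ : Gamma0 N, compMer (γ : SL(2, ℤ)) (Hp y) =
          zetaMer p ^ (heckeHom hℓN (ZMod p) u (Additive.ofMul γ)).val * Hp y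

section Main

variable {N p : ℕ} [NeZero N] [hp : Fact p.Prime]

/-- the bridge hypotheses of `Hk/Equivariant` from the ledger `Blocks`. -/
theorem bridge_of_blocks {Φ : FC N →+* Mer} (hB : Blocks N p Φ) :
    Bridge ℂ Φ (fun γ : Gamma0 N => compMer (γ : SL(2, ℤ))) (zetaMer p) p where
  prim := zetaMer_isPrimitiveRoot p
  rho_zeta := fun γ => by
    have h1 := hB.phi_inv γ (algebraMap ℂ (FC N) (Complex.exp (2 * Real.pi * Complex.I / p)))
    rwa [hB.phi_const] at h1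
  rho_Phi := hB.phi_inv
  conv := hB.root
  const := fun f hf h => by
    obtain ⟨a, ha⟩ := hB.const f hf h
    exact ⟨a, ha.symm⟩
  root := fun c => IsAlgClosed.exists_pow_nat_eq c hp.out.pos

/-- every admissible character is realised by a class. -/
theorem exists_kum [HasPrincipalDivisors ℂ (FC N)] {Φ : FC N →+* Mer} (hB : Blocks N p Φ)
    (u : Additive (Gamma0 N) →+ ZMod p) (hu : IsAdmHom u) :
    ∃ x : Pic0 ℂ (FC N),
      Kum Φ (fun γ : Gamma0 N => compMer (γ : SL(2, ℤ))) (zetaMer p) p x u := by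
  obtain ⟨y, hy0, hymult, hycusp⟩ := hB.eis u hu
  have hinv : ∀ γ : Gamma0 N, compMer (γ : SL(2, ℤ)) (y ^ p) = y ^ p := by
    intro γ
    rw [map_pow, hymult γ, mul_pow, ← map_pow, charOf_pow, map_one, one_mul]
  have hcusp : ∀ g : SL(2, ℤ), compMer g (y ^ p) ∈ MerInf N := by
    intro g
    rw [map_pow]
    exact pow_mem (hycusp g) p
  obtain ⟨f, hf⟩ := hB.conv (y ^ p) hinv hcusp
  have hf0 : f ≠ 0 := by
    rintro rfl
    rw [map_zero] at hf
    exact hy0 ((pow_eq_zero_iff hp.out.ne_zero).1 hf.symm)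
  have hdvd : ∀ Q : Place ℂ (FC N), (p : ℤ) ∣ Q.ord f := by
    refine hB.dict y hy0 f hf ?_ ?_ hycusp
    · intro γ hγ h12
      have hfin : IsOfFinOrder (⟨γ, hγ⟩ : Gamma0 N) := by
        rw [isOfFinOrder_iff_pow_eq_one]
        exact ⟨12, by norm_num, Subtype.ext h12⟩
      have h1 := hymult ⟨γ, hγ⟩
      rw [(charOf_eq_one_iff _ _).mpr (hu ⟨γ, hγ⟩ (Or.inr hfin)), Units.val_one, map_one,
        one_mul] at h1
      exact h1
    · intro γ hγ htr
      have h4 : (((⟨γ, hγ⟩ : Gamma0 N) : SL(2, ℤ)) : Matrix (Fin 2) (Fin 2) ℤ).trace ^ 2 = 4 := by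
        show (γ : Matrix (Fin 2) (Fin 2) ℤ).trace ^ 2 = 4
        rw [htr]
        norm_num
      have h1 := hymult ⟨γ, hγ⟩
      rw [(charOf_eq_one_iff _ _).mpr (hu ⟨γ, hγ⟩ (Or.inl h4)), Units.val_one, map_one,
        one_mul] at h1
      exact h1
  exact Kum.exists_of_dvd hf0 hf.symm hdvd (fun γ => by rw [hymult γ, algebraMap_charOf])

/-- **block (KC)** from the two ledgers. -/
theorem blockKC_of {Φ : FC N →+* Mer} (hB : Blocks N p Φ) (hHk : HkInput N p Φ) :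
    Skeleton.BlockKC N p (D0 N p) := by
  haveI : HasPrincipalDivisors ℂ (FC N) := HeckeInputsL.hasPrincipalDivisors_L ℂ N
  have hBr := bridge_of_blocks hB
  let X : AddSubgroup (Additive (Gamma0 N) →+ ZMod p) :=
    (XMod N (ZMod p) (ZMod p)).toAddSubgroup
  obtain ⟨e, he, hspec⟩ := exists_section hBr X (fun u hu => exists_kum hB u hu)
  refine ⟨e, he, ?_⟩
  intro ℓ u
  haveI : Fact (ℓ.1 : ℕ).Prime := ⟨ℓ.1.2⟩
  haveI : NeZero (ℓ.1 : ℕ) := ⟨ℓ.1.2.ne_zero⟩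
  have hℓN : ¬ (ℓ.1 : ℕ) ∣ N := fun h => ℓ.2 (dvd_mul_of_dvd_left h p)
  haveI : HasPrincipalDivisors ℂ (FC (N * (ℓ.1 : ℕ))) :=
    HeckeInputsL.hasPrincipalDivisors_L ℂ (N * (ℓ.1 : ℕ))
  obtain ⟨Hp, hHpΦ, hHp⟩ := hHk (ℓ.1 : ℕ) hℓN
  have hmem : heckeHom hℓN (ZMod p) (u : Additive (Gamma0 N) →+ ZMod p) ∈ X :=
    isAdmChar_heckeHom hℓN u.2
  have h1 := section_hecke hBr X (fun v => ((e v : Pic0.torsion ℂ (FC N) p) : Pic0 ℂ (FC N)))
    hspec (heckeAlphaBar ℂ N (ℓ.1 : ℕ)) (heckeBetaBar ℂ N (ℓ.1 : ℕ))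
    (HeckeInputsL.heckeAlphaBarIntegral ℂ N (ℓ.1 : ℕ))
    (HeckeInputsL.heckeBetaBarIntegral ℂ N (ℓ.1 : ℕ))
    (HeckeInputsL.fundamentalIdentityAlong_beta ℂ N (ℓ.1 : ℕ))
    (HeckeInputsL.finiteAlong_alpha ℂ N (ℓ.1 : ℕ))
    (HeckeInputsL.normFormulaAlong_alpha ℂ N (ℓ.1 : ℕ)) Hp hHpΦ
    (fun v => heckeHom hℓN (ZMod p) v) hHp u hmem
  have h2 : Skeleton.heckeC N ℓ.1 =
      Pic0.correspondence (heckeBetaBar ℂ N (ℓ.1 : ℕ)) (heckeAlphaBar ℂ N (ℓ.1 : ℕ))
        (HeckeInputsL.heckeBetaBarIntegral ℂ N (ℓ.1 : ℕ))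
        (HeckeInputsL.heckeAlphaBarIntegral ℂ N (ℓ.1 : ℕ))
        (HeckeInputsL.fundamentalIdentityAlong_beta ℂ N (ℓ.1 : ℕ))
        (HeckeInputsL.finiteAlong_alpha ℂ N (ℓ.1 : ℕ))
        (HeckeInputsL.normFormulaAlong_alpha ℂ N (ℓ.1 : ℕ)) :=
    HeckeInputsL.heckeOperatorAlong_eq_heckePic0Bar ℂ N (ℓ.1 : ℕ)
  rw [h2]
  exact h1.symm

end Main

end Fermat.Agent.S29.Kummer.BlockKC

end
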