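import Mathlib
import Fermat.Prelude.Def_AlgebraicCurve_BaseChangeGalois
import Fermat.Agent.S29.Desc.CanonicalRep

/-!
# S29 (R3-K1): the abstract Kummer class `x ↦ [(1/n) div x] ∈ Pic⁰[n]`

`K F` with `[HasPrincipalDivisors K F]`, `n ≠ 0`.

* `divBy n D` : pointwise division of a divisor by `n`; `zsmul_divBy`, `divBy_add`, `divBy_smul`,
  `eq_of_zsmul_eq` (divisors are torsion free), `map_divBy` (additive maps commute with `divBy`);
* `NDiv K F n : Subgroup Fˣ` : the functions all of whose orders are divisible by `n`;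
* `divRoot n x : Divisor.degZero` with `n • divRoot n x = divOf x`;
* `classRoot K F n : Additive (NDiv K F n) →+ Pic0 K F`, with values in `Pic0.torsion K F n`
  (`classRoot_mem_torsion`), kernel (`classRoot_eq_zero_iff`), surjectivity onto the torsion
  (`exists_classRoot_eq`), `n`-th powers are killed (`classRoot_pow`), equivariance under
  semilinear automorphisms (`classRoot_smul`) and compatibility with additive maps having a norm
  formula (`map_divRoot`).
-/

set_option autoImplicit false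
set_option linter.unusedSectionVars false
set_option linter.style.haveILetI false

open AlgebraicCurve

namespace Fermat.Agent.S29.Kummer.DivRoot

open Fermat.Agent.S29.Desc.CanonicalRep

variable {K F : Type*} [Field K] [Field F] [Algebra K F]

/-! ### division of divisors -/

/-- `(1/n) • D`, pointwise Euclidean division. -/
noncomputable def divBy (n : ℕ) (D : Divisor K F) : Divisor K F :=
  Finsupp.mapRange (fun a : ℤ => a / (n : ℤ)) (Int.zero_ediv _) D

@[simp] theorem divBy_apply (n : ℕ) (D : Divisor K F) (v : Place K F) :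
    divBy n D v = D v / (n : ℤ) :=
  Finsupp.mapRange_apply ..

theorem zsmul_divBy {n : ℕ} {D : Divisor K F} (h : ∀ v, (n : ℤ) ∣ D v) :
    (n : ℤ) • divBy n D = D := by
  ext v
  rw [Finsupp.smul_apply, divBy_apply, smul_eq_mul, Int.mul_ediv_cancel' (h v)]

theorem divBy_zero (n : ℕ) : divBy n (0 : Divisor K F) = 0 := by
  ext v
  simp

theorem divBy_add {n : ℕ} {D E : Divisor K F} (hD : ∀ v, (n : ℤ) ∣ D v) :
    divBy n (D + E) = divBy n D + divBy n E := by
  ext v
  rw [Finsupp.add_apply, divBy_apply, divBy_apply, divBy_apply, Finsupp.add_apply,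
    Int.add_ediv_of_dvd_left (hD v)]

theorem divBy_zsmul {n : ℕ} (hn : n ≠ 0) (D : Divisor K F) : divBy n ((n : ℤ) • D) = D := by
  ext v
  rw [divBy_apply, Finsupp.smul_apply, smul_eq_mul,
    Int.mul_ediv_cancel_left _ (Int.natCast_ne_zero.mpr hn)]

/-- divisors are torsion free. -/
theorem eq_of_zsmul_eq {n : ℕ} (hn : n ≠ 0) {D E : Divisor K F}
    (h : (n : ℤ) • D = (n : ℤ) • E) : D = E := by
  rw [← divBy_zsmul hn D, h, divBy_zsmul hn E]

theorem degree_divBy {n : ℕ} (hn : n ≠ 0) {D : Divisor K F} (h : ∀ v, (n : ℤ) ∣ D v)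
    (hD : Divisor.degree D = 0) : Divisor.degree (divBy n D) = 0 := by
  have h1 : (n : ℤ) • Divisor.degree (divBy n D) = 0 := by
    rw [← map_zsmul, zsmul_divBy h, hD]
  rcases smul_eq_zero.mp h1 with h2 | h2
  · exact absurd h2 (Int.natCast_ne_zero.mpr hn)
  · exact h2

theorem divBy_smul (g : SemilinearAut K F) (n : ℕ) (D : Divisor K F) :
    divBy n (g • D) = g • divBy n D := by
  ext v
  rw [divBy_apply, SemilinearAut.divisor_smul_apply, SemilinearAut.divisor_smul_apply,
    divBy_apply]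

/-- additive maps between divisor groups commute with `divBy`. -/
theorem map_divBy {K' F' : Type*} [Field K'] [Field F'] [Algebra K' F']
    (T : Divisor K F →+ Divisor K' F') {n : ℕ} (hn : n ≠ 0) {D : Divisor K F}
    (hD : ∀ v, (n : ℤ) ∣ D v) :
    (∀ w, (n : ℤ) ∣ T D w) ∧ T (divBy n D) = divBy n (T D) := by
  have h1 : T D = (n : ℤ) • T (divBy n D) := by
    rw [← map_zsmul, zsmul_divBy hD]
  refine ⟨fun w => ?_, ?_⟩
  · rw [h1, Finsupp.smul_apply, smul_eq_mul]
    exact dvd_mul_right _ _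
  · rw [h1, divBy_zsmul hn]

/-! ### functions with orders divisible by `n` -/

variable (K F) in
/-- the nonzero functions all of whose orders are divisible by `n`. -/
def NDiv (n : ℕ) : Subgroup Fˣ where
  carrier := {x | ∀ v : Place K F, (n : ℤ) ∣ v.ord (x : F)}
  mul_mem' := by
    intro x y hx hy v
    rw [Units.val_mul, v.ord_mul x.ne_zero y.ne_zero]
    exact dvd_add (hx v) (hy v)
  one_mem' := by
    intro v
    rw [Units.val_one, Place.ord_one]
    exact dvd_zero _
  inv_mem' := by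
    intro x hx v
    rw [Units.val_inv_eq_inv_val, v.ord_inv]
    exact (dvd_neg).mpr (hx v)

theorem mem_NDiv {n : ℕ} {x : Fˣ} :
    x ∈ NDiv K F n ↔ ∀ v : Place K F, (n : ℤ) ∣ v.ord (x : F) := Iff.rfl

theorem pow_mem_NDiv (n : ℕ) (w : Fˣ) : w ^ n ∈ NDiv K F n := by
  intro v
  rw [Units.val_pow_eq_pow_val, ← zpow_natCast, v.ord_zpow]
  exact dvd_mul_right _ _

section principal

variable [HasPrincipalDivisors K F]

theorem divOf_one : divOf (K := K) (1 : F) = 0 := by
  ext v
  rw [divOf_apply, Place.ord_one, Finsupp.zero_apply]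

theorem divOf_pow (w : F) (n : ℕ) : divOf (K := K) (w ^ n) = (n : ℤ) • divOf w := by
  ext v
  rw [divOf_apply, Finsupp.smul_apply, divOf_apply, ← zpow_natCast, v.ord_zpow, smul_eq_mul]

theorem divOf_inv (w : F) : divOf (K := K) w⁻¹ = - divOf w := by
  ext v
  rw [divOf_apply, Finsupp.neg_apply, divOf_apply, v.ord_inv]

theorem dvd_divOf {n : ℕ} {x : Fˣ} (hx : x ∈ NDiv K F n) (v : Place K F) :
    (n : ℤ) ∣ divOf (K := K) (x : F) v := by
  rw [divOf_apply]
  exact hx v

variable (n : ℕ) [hn : NeZero n]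

/-- `(1/n) div x` as a divisor of degree zero. -/
noncomputable def divRoot (x : NDiv K F n) : Divisor.degZero (K := K) (F := F) :=
  ⟨divBy n (divOf (K := K) (((x : Fˣ) : F))),
    Divisor.mem_degZero.mpr (degree_divBy hn.out (dvd_divOf (K := K) x.2)
      (degree_divOf (K := K) (((x : Fˣ) : F))))⟩

@[simp] theorem coe_divRoot (x : NDiv K F n) :
    ((divRoot n x : Divisor.degZero (K := K) (F := F)) : Divisor K F)
      = divBy n (divOf (((x : Fˣ) : F))) := rfl

theorem zsmul_divRoot (x : NDiv K F n) :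
    (n : ℤ) • ((divRoot n x : Divisor.degZero (K := K) (F := F)) : Divisor K F)
      = divOf (((x : Fˣ) : F)) :=
  zsmul_divBy (dvd_divOf x.2)

theorem divRoot_apply (x : NDiv K F n) (v : Place K F) :
    ((divRoot n x : Divisor.degZero (K := K) (F := F)) : Divisor K F) v
      = v.ord (((x : Fˣ) : F)) / (n : ℤ) := by
  rw [coe_divRoot, divBy_apply, divOf_apply]

theorem divRoot_one : divRoot n (1 : NDiv K F n) = 0 := by
  apply Subtype.ext
  rw [coe_divRoot]
  show divBy n (divOf (K := K) (1 : F)) = 0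
  rw [divOf_one, divBy_zero]

theorem divRoot_mul (x y : NDiv K F n) : divRoot n (x * y) = divRoot n x + divRoot n y := by
  apply Subtype.ext
  rw [AddSubgroup.coe_add, coe_divRoot, coe_divRoot, coe_divRoot]
  show divBy n (divOf (K := K) ((((x : Fˣ) : F)) * (((y : Fˣ) : F)))) = _
  rw [divOf_mul (x : Fˣ).ne_zero (y : Fˣ).ne_zero, divBy_add (dvd_divOf x.2)]

variable (K F) in
/-- **the Kummer class** `x ↦ [(1/n) div x]`. -/
noncomputable def classRoot : Additive (NDiv K F n) →+ Pic0 K F where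
  toFun x := Pic0.mk (divRoot n (Additive.toMul x))
  map_zero' := by
    show Pic0.mk (divRoot n (1 : NDiv K F n)) = 0
    rw [divRoot_one, Pic0.mk_zero]
  map_add' x y := by
    show Pic0.mk (divRoot n (Additive.toMul x * Additive.toMul y)) = _
    rw [divRoot_mul, Pic0.mk_add]

theorem classRoot_apply (x : NDiv K F n) :
    classRoot K F n (Additive.ofMul x) = Pic0.mk (divRoot n x) := rfl

theorem mk_eq_zero_iff (D : Divisor.degZero (K := K) (F := F)) :
    Pic0.mk D = 0 ↔ (D : Divisor K F) ∈ Divisor.principal (K := K) (F := F) := by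
  unfold Pic0.mk
  rw [QuotientAddGroup.eq_zero_iff, AddSubgroup.mem_addSubgroupOf]

/-- the Kummer class is `n`-torsion. -/
theorem classRoot_mem_torsion (x : NDiv K F n) :
    classRoot K F n (Additive.ofMul x) ∈ Pic0.torsion K F n := by
  rw [Pic0.mem_torsion, classRoot_apply]
  have h1 : (n : ℤ) • Pic0.mk (divRoot n x) = Pic0.mk ((n : ℤ) • divRoot n x) := rfl
  rw [h1, mk_eq_zero_iff, AddSubgroup.coe_zsmul, zsmul_divRoot]
  exact divOf_mem_principal (x : Fˣ).ne_zero

/-- the kernel of the Kummer class: `x` is an `n`-th power up to a function without zeros and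
poles. -/
theorem classRoot_eq_zero_iff (x : NDiv K F n) :
    classRoot K F n (Additive.ofMul x) = 0 ↔
      ∃ w : Fˣ, ∀ v : Place K F, v.ord ((((x : Fˣ) : F)) * ((w : F) ^ n)⁻¹) = 0 := by
  rw [classRoot_apply, mk_eq_zero_iff, Divisor.mem_principal]
  constructor
  · rintro ⟨f, hf, hD⟩
    refine ⟨Units.mk0 f hf, fun v => ?_⟩
    have h1 := hD v
    rw [divRoot_apply] at h1
    have h2 : v.ord (((x : Fˣ) : F)) = (n : ℤ) * v.ord f := by
      rw [← h1, Int.mul_ediv_cancel' (x.2 v)]
    rw [Units.val_mk0, v.ord_mul (x : Fˣ).ne_zero (inv_ne_zero (pow_ne_zero _ hf)), v.ord_inv,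
      ← zpow_natCast, v.ord_zpow, h2]
    ring
  · rintro ⟨w, hw⟩
    refine ⟨(w : F), w.ne_zero, fun v => ?_⟩
    have h1 := hw v
    rw [v.ord_mul (x : Fˣ).ne_zero (inv_ne_zero (pow_ne_zero _ w.ne_zero)), v.ord_inv,
      ← zpow_natCast, v.ord_zpow] at h1
    rw [divRoot_apply]
    have h2 : v.ord (((x : Fˣ) : F)) = (n : ℤ) * v.ord (w : F) := by linarith
    rw [h2, Int.mul_ediv_cancel_left _ (Int.natCast_ne_zero.mpr hn.out)]

/-- `n`-th powers have trivial Kummer class. -/
theorem classRoot_pow (w : Fˣ) :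
    classRoot K F n (Additive.ofMul ⟨w ^ n, pow_mem_NDiv n w⟩) = 0 := by
  rw [classRoot_eq_zero_iff]
  refine ⟨w, fun v => ?_⟩
  show v.ord (((w ^ n : Fˣ) : F) * ((w : F) ^ n)⁻¹) = 0
  rw [Units.val_pow_eq_pow_val, mul_inv_cancel₀ (pow_ne_zero _ w.ne_zero), Place.ord_one]

/-- multiplying by an `n`-th power does not change the Kummer class. -/
theorem classRoot_mul_pow (x : NDiv K F n) (w : Fˣ) :
    classRoot K F n (Additive.ofMul (x * ⟨w ^ n, pow_mem_NDiv n w⟩)) =
      classRoot K F n (Additive.ofMul x) := by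
  rw [ofMul_mul, map_add, classRoot_pow, add_zero]

/-- constants belong to `NDiv`. -/
theorem algebraMap_mem_NDiv (c : Kˣ) :
    Units.map (algebraMap K F : K →* F) c ∈ NDiv K F n := by
  intro v
  show (n : ℤ) ∣ v.ord (algebraMap K F (c : K))
  rw [Fermat.Agent.S24.FFDeriv.ord_algebraMap]
  exact dvd_zero _

/-- constants have trivial Kummer class. -/
theorem classRoot_const (c : Kˣ) :
    classRoot K F n (Additive.ofMul ⟨_, algebraMap_mem_NDiv n c⟩) = 0 := by
  rw [classRoot_eq_zero_iff]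
  refine ⟨1, fun v => ?_⟩
  show v.ord (algebraMap K F (c : K) * (((1 : Fˣ) : F) ^ n)⁻¹) = 0
  rw [Units.val_one, one_pow, inv_one, mul_one, Fermat.Agent.S24.FFDeriv.ord_algebraMap]

/-- the kernel of the Kummer class when the only functions without zeros and poles are the
constants: `x = c * w ^ n`. -/
theorem classRoot_eq_zero_iff_of_const
    (hconst : ∀ f : F, f ≠ 0 → (∀ v : Place K F, v.ord f = 0) → ∃ c : K, f = algebraMap K F c)
    (x : NDiv K F n) :
    classRoot K F n (Additive.ofMul x) = 0 ↔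
      ∃ (c : K) (w : F), c ≠ 0 ∧ w ≠ 0 ∧ (((x : Fˣ) : F)) = algebraMap K F c * w ^ n := by
  rw [classRoot_eq_zero_iff]
  constructor
  · rintro ⟨w, hw⟩
    have hne : (((x : Fˣ) : F)) * ((w : F) ^ n)⁻¹ ≠ 0 :=
      mul_ne_zero (x : Fˣ).ne_zero (inv_ne_zero (pow_ne_zero _ w.ne_zero))
    obtain ⟨c, hc⟩ := hconst _ hne hw
    refine ⟨c, (w : F), ?_, w.ne_zero, ?_⟩
    · rintro rfl
      rw [map_zero] at hc
      exact hne hc
    · rw [← hc, mul_assoc, inv_mul_cancel₀ (pow_ne_zero _ w.ne_zero), mul_one]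
  · rintro ⟨c, w, hc, hw, hx⟩
    refine ⟨Units.mk0 w hw, fun v => ?_⟩
    rw [Units.val_mk0, hx, mul_assoc, mul_inv_cancel₀ (pow_ne_zero _ hw), mul_one,
      Fermat.Agent.S24.FFDeriv.ord_algebraMap]

/-- every `n`-torsion class is a Kummer class. -/
theorem exists_classRoot_eq {y : Pic0 K F} (hy : y ∈ Pic0.torsion K F n) :
    ∃ x : NDiv K F n, classRoot K F n (Additive.ofMul x) = y := by
  obtain ⟨D, rfl⟩ := Pic0.mk_surjective y
  rw [Pic0.mem_torsion] at hy
  have h1 : (n : ℤ) • Pic0.mk D = Pic0.mk ((n : ℤ) • D) := rfl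
  rw [h1, mk_eq_zero_iff, AddSubgroup.coe_zsmul, Divisor.mem_principal] at hy
  obtain ⟨f, hf, hD⟩ := hy
  have hmem : Units.mk0 f hf ∈ NDiv K F n := by
    intro v
    rw [Units.val_mk0, ← hD v, Finsupp.smul_apply, smul_eq_mul]
    exact dvd_mul_right _ _
  refine ⟨⟨Units.mk0 f hf, hmem⟩, ?_⟩
  rw [classRoot_apply]
  congr 1
  apply Subtype.ext
  ext v
  rw [divRoot_apply]
  show v.ord f / (n : ℤ) = (D : Divisor K F) v
  rw [← hD v, Finsupp.smul_apply, smul_eq_mul,
    Int.mul_ediv_cancel_left _ (Int.natCast_ne_zero.mpr hn.out)]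

/-! ### equivariance -/

/-- a semilinear automorphism preserves `NDiv`. -/
theorem smul_mem_NDiv (g : SemilinearAut K F) {x : Fˣ} (hx : x ∈ NDiv K F n) :
    Units.map (SemilinearAut.toRingAut g : F →* F) x ∈ NDiv K F n := by
  intro v
  have h1 := SemilinearAut.ord_smul g (g⁻¹ • v) (x : F)
  rw [smul_inv_smul] at h1
  show (n : ℤ) ∣ v.ord (SemilinearAut.toRingAut g (x : F))
  rw [← SemilinearAut.smul_def, h1]
  exact hx _

theorem divRoot_smul (g : SemilinearAut K F) (x : NDiv K F n) :
    ((divRoot n ⟨_, smul_mem_NDiv n g x.2⟩ : Divisor.degZero (K := K) (F := F)) : Divisor K F)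
      = g • ((divRoot n x : Divisor.degZero (K := K) (F := F)) : Divisor K F) := by
  rw [coe_divRoot, coe_divRoot, ← divBy_smul, ← divOf_smul]
  rfl

theorem classRoot_smul (g : SemilinearAut K F) (x : NDiv K F n) :
    classRoot K F n (Additive.ofMul ⟨_, smul_mem_NDiv n g x.2⟩)
      = g • classRoot K F n (Additive.ofMul x) := by
  rw [classRoot_apply, classRoot_apply, SemilinearAut.pic0_smul_mk]
  congr 1
  apply Subtype.ext
  rw [SemilinearAut.coe_degZeroSMulHom]
  exact divRoot_smul n g x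

/-! ### compatibility with additive maps having a norm formula -/

/-- if `T (div x) = div y` for an additive map `T` between divisor groups, then `y ∈ NDiv` and
`T ((1/n) div x) = (1/n) div y`. -/
theorem map_divRoot {K' F' : Type*} [Field K'] [Field F'] [Algebra K' F']
    [HasPrincipalDivisors K' F'] (T : Divisor K F →+ Divisor K' F') (x : NDiv K F n) (y : F'ˣ)
    (hT : T (divOf (((x : Fˣ) : F))) = divOf (K := K') (y : F')) :
    ∃ hy : y ∈ NDiv K' F' n,
      T ((divRoot n x : Divisor.degZero (K := K) (F := F)) : Divisor K F)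
        = ((divRoot n ⟨y, hy⟩ : Divisor.degZero (K := K') (F := F')) : Divisor K' F') := by
  obtain ⟨h1, h2⟩ := map_divBy T hn.out (dvd_divOf (K := K) x.2)
  have hy : y ∈ NDiv K' F' n := by
    intro w
    have := h1 w
    rwa [hT, divOf_apply] at this
  refine ⟨hy, ?_⟩
  rw [coe_divRoot, coe_divRoot, h2, hT]

end principal

end Fermat.Agent.S29.Kummer.DivRoot
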